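import Fermat.Agent.S13.H164.Torsion
import Fermat.Prelude.Def_FLTPrelim_FreyPackage

/-!
# S13 / T1 (helper164): the `p`-torsion of the Frey curve

Specialisation of the ladder results to `P.freyCurve` over any algebraically closed field `K`
with an `Algebra ℚ K` structure (in particular `AlgebraicClosure ℚ`, with whatever instances the
frozen statement uses).

Main results (`V := Submodule.torsionBy ℤ (P.freyCurve⁄K).Point P.p`):
* `frey_nontrivial_torsion : Nontrivial V`
* `frey_finite_card_torsion : Finite V ∧ Nat.card V ≤ P.p ^ 2`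
* `freyQ P : ℤ[X]` with `leadingCoeff = p`, `natDegree = (p² - 1) / 2` and
  `P.p • (x, y) = 0 ↔ aeval x (freyQ P) = 0`.
-/

set_option autoImplicit false

namespace Fermat.Agent.S13.H164

open Polynomial WeierstrassCurve
open scoped WeierstrassCurve.Affine

variable (P : FreyPackage)

lemma frey_four_dvd : (4 : ℤ) ∣ P.b ^ P.p - 1 - P.a ^ P.p := by
  have hp := P.hp5
  have hb : (2 : ℤ) ∣ P.b := (ZMod.intCast_zmod_eq_zero_iff_dvd P.b 2).1 P.hb2
  have hb4 : (4 : ℤ) ∣ P.b ^ P.p := by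
    obtain ⟨k, hk⟩ := hb
    obtain ⟨j, hj⟩ : ∃ j, P.p = j + 2 := ⟨P.p - 2, by omega⟩
    have : P.b ^ P.p = 4 * (2 ^ j * k ^ P.p) := by
      rw [hk, hj]
      ring
    exact ⟨_, this⟩
  have ha : ((P.a ^ P.p : ℤ) : ZMod 4) = 3 := by
    push_cast
    rw [P.ha4]
    obtain ⟨m, hm⟩ := P.hp_odd
    rw [hm, pow_succ, pow_mul]
    have : (3 : ZMod 4) ^ 2 = 1 := by decide
    rw [this, one_pow, one_mul]
  have hb' : ((P.b ^ P.p : ℤ) : ZMod 4) = 0 :=
    (ZMod.intCast_zmod_eq_zero_iff_dvd _ 4).2 hb4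
  apply (ZMod.intCast_zmod_eq_zero_iff_dvd _ 4).1
  push_cast at ha hb' ⊢
  rw [ha, hb']
  decide

lemma frey_sixteen_dvd : (16 : ℤ) ∣ -(P.a ^ P.p) * P.b ^ P.p := by
  have hp := P.hp5
  have hb : (2 : ℤ) ∣ P.b := (ZMod.intCast_zmod_eq_zero_iff_dvd P.b 2).1 P.hb2
  obtain ⟨k, hk⟩ := hb
  obtain ⟨j, hj⟩ : ∃ j, P.p = j + 4 := ⟨P.p - 4, by omega⟩
  have : -(P.a ^ P.p) * P.b ^ P.p = 16 * (-(P.a ^ P.p) * (2 ^ j * k ^ P.p)) := by
    rw [hk, hj]
    ring
  exact ⟨_, this⟩

/-- The Frey curve over `ℚ` is the base change of the integral Frey curve. -/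
theorem freyCurve_eq_map : P.freyCurve = P.freyCurveInt.map (Int.castRingHom ℚ) := by
  have h4 := frey_four_dvd P
  have h16 := frey_sixteen_dvd P
  ext
  · simp [FreyPackage.freyCurve, FreyPackage.freyCurveInt, WeierstrassCurve.map]
  · simp only [FreyPackage.freyCurve, FreyPackage.freyCurveInt, WeierstrassCurve.map,
      eq_intCast]
    rw [Int.cast_div h4 (by norm_num)]
    push_cast
    ring
  · simp [FreyPackage.freyCurve, FreyPackage.freyCurveInt, WeierstrassCurve.map]
  · simp only [FreyPackage.freyCurve, FreyPackage.freyCurveInt, WeierstrassCurve.map,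
      eq_intCast]
    rw [Int.cast_div h16 (by norm_num)]
    push_cast
    ring
  · simp [FreyPackage.freyCurve, FreyPackage.freyCurveInt, WeierstrassCurve.map]

/-- The discriminant of the Frey curve is `(abc)^{2p} / 2^8`. -/
theorem freyCurve_Δ : P.freyCurve.Δ = ((P.a * P.b * P.c : ℤ) : ℚ) ^ (2 * P.p) / 2 ^ 8 := by
  have hc : ((P.c : ℤ) : ℚ) ^ P.p = (P.a : ℚ) ^ P.p + (P.b : ℚ) ^ P.p := by
    have := congrArg (Int.cast : ℤ → ℚ) P.hFLT
    push_cast at this
    exact this.symm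
  simp only [WeierstrassCurve.Δ, WeierstrassCurve.b₂, WeierstrassCurve.b₄, WeierstrassCurve.b₆,
    WeierstrassCurve.b₈, FreyPackage.freyCurve]
  push_cast
  rw [pow_mul', mul_pow, mul_pow, hc]
  ring

theorem freyCurve_Δ_ne_zero : P.freyCurve.Δ ≠ 0 := by
  rw [freyCurve_Δ]
  have h := P.habc0
  have : ((P.a * P.b * P.c : ℤ) : ℚ) ≠ 0 := by exact_mod_cast h
  positivity

section BaseChange

variable {K : Type*} [Field K] [Algebra ℚ K]

theorem frey_baseChange_Δ_ne_zero : (P.freyCurve⁄K).Δ ≠ 0 := by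
  simp only [WeierstrassCurve.baseChange, WeierstrassCurve.map_Δ]
  exact (map_ne_zero_iff _ (algebraMap ℚ K).injective).mpr (freyCurve_Δ_ne_zero P)

lemma frey_charZero : CharZero K := charZero_of_injective_algebraMap (algebraMap ℚ K).injective

lemma frey_p_ne_zero : ((P.p : ℕ) : K) ≠ 0 := by
  have : CharZero K := frey_charZero
  exact Nat.cast_ne_zero.mpr P.hp0

variable [DecidableEq K]

/-- `E[p](K)` is nontrivial for the Frey curve. -/
theorem frey_nontrivial_torsion [IsAlgClosed K] :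
    Nontrivial (Submodule.torsionBy ℤ (P.freyCurve⁄K).Point P.p) :=
  nontrivial_odd_torsion (P.freyCurve⁄K).toAffine (frey_baseChange_Δ_ne_zero P) P.p P.hp_odd
    (le_trans (by norm_num) P.hp5) (frey_p_ne_zero P)

/-- `#E[p](K) ≤ p²` for the Frey curve. -/
theorem frey_finite_card_torsion :
    Finite (Submodule.torsionBy ℤ (P.freyCurve⁄K).Point P.p) ∧
      Nat.card (Submodule.torsionBy ℤ (P.freyCurve⁄K).Point P.p) ≤ P.p ^ 2 :=
  finite_card_torsion_of_odd (P.freyCurve⁄K).toAffine P.p P.hp_odd (frey_p_ne_zero P)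

/-- The integral `p`-division polynomial (in `x`) of the Frey curve. -/
noncomputable def freyQ : ℤ[X] := Qpoly P.freyCurveInt (P.p / 2)

lemma frey_two_mul_half : 2 * (P.p / 2) + 1 = P.p := by
  obtain ⟨m, hm⟩ := P.hp_odd
  omega

theorem freyQ_leadingCoeff : (freyQ P).leadingCoeff = (P.p : ℤ) := by
  have h : (((2 * (P.p / 2) + 1 : ℕ)) : ℤ) ≠ 0 := by
    rw [frey_two_mul_half]; exact_mod_cast P.hp0
  rw [freyQ, leadingCoeff_Qpoly _ _ h, frey_two_mul_half]

theorem freyQ_natDegree : (freyQ P).natDegree = (P.p ^ 2 - 1) / 2 := by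
  have h : (((2 * (P.p / 2) + 1 : ℕ)) : ℤ) ≠ 0 := by
    rw [frey_two_mul_half]; exact_mod_cast P.hp0
  rw [freyQ, natDegree_Qpoly _ _ h]
  obtain ⟨m, hm⟩ := P.hp_odd
  have e : P.p / 2 = m := by omega
  rw [e, hm]
  have : (2 * m + 1) ^ 2 - 1 = 2 * (2 * m * m + 2 * m) := by
    have : (2 * m + 1) ^ 2 = 2 * (2 * m * m + 2 * m) + 1 := by ring
    omega
  rw [this, Nat.mul_div_cancel_left _ (by norm_num : 0 < 2)]

omit [DecidableEq K] in
lemma frey_baseChange_eq :
    (P.freyCurve⁄K) = P.freyCurveInt.map (Int.castRingHom K) := by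
  change P.freyCurve.map (algebraMap ℚ K) = _
  rw [freyCurve_eq_map, WeierstrassCurve.map_map]
  congr 1
  exact RingHom.ext_int _ _

/-- **Torsion criterion for the Frey curve**, with an integral polynomial. -/
theorem frey_nsmul_eq_zero_iff {x y : K} (h : (P.freyCurve⁄K).toAffine.Nonsingular x y) :
    P.p • Affine.Point.some x y h = 0 ↔ aeval x (freyQ P) = 0 := by
  have key : ∀ (W : WeierstrassCurve K) (hW : W = P.freyCurveInt.map (Int.castRingHom K))
      (h : W.toAffine.Nonsingular x y),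
      P.p • Affine.Point.some x y h = 0 ↔ aeval x (freyQ P) = 0 := by
    intro W hW h
    subst hW
    have := odd_nsmul_eq_zero_iff_eval₂ (Int.castRingHom K) P.freyCurveInt h (P.p / 2)
    rw [frey_two_mul_half] at this
    rw [this, freyQ, aeval_def]
    rfl
  exact key _ (frey_baseChange_eq P) h

end BaseChange

end Fermat.Agent.S13.H164
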