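import Mathlib.Algebra.Polynomial.Degree.Lemmas
import Mathlib.Algebra.Polynomial.Eval.Degree
import Mathlib.Tactic

/-!
# S13 / T1 (helper164): the `x`-ladder for multiplication by `n` on a Weierstrass curve

For parameters `b₂ b₄ b₆ b₈ x` in a commutative ring `A` we define a sequence of pairs
`lad n = (N_n, D_n)` such that, on a Weierstrass curve with these `b`-invariants and for a point
`P` with `x`-coordinate `x`, the `x`-coordinate of `n • P` is `N_n / D_n` (projectively).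

The recursion is the Montgomery ladder:
* `(N_{2k} : D_{2k})` is the duplication map applied to `(N_k : D_k)`;
* `(N_{2k+1} : D_{2k+1})` comes from `x(Q+R) + x(Q-R) = S(x_Q, x_R) / (x_Q - x_R)²`
  with `Q = (k+1)P`, `R = kP`, `Q - R = P`.
-/

set_option autoImplicit false

namespace Fermat.Agent.S13.H164

section Generic

variable {A : Type*} [CommRing A]

/-- homogeneous numerator of the duplication map on `x`-coordinates -/
def dN (b₄ b₆ b₈ u v : A) : A :=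
  u ^ 4 - b₄ * u ^ 2 * v ^ 2 - 2 * b₆ * u * v ^ 3 - b₈ * v ^ 4

/-- homogeneous denominator of the duplication map on `x`-coordinates -/
def dD (b₂ b₄ b₆ u v : A) : A :=
  v * (4 * u ^ 3 + b₂ * u ^ 2 * v + 2 * b₄ * u * v ^ 2 + b₆ * v ^ 3)

/-- `x_R - x_Q` cleared of denominators -/
def oW (u₁ v₁ u₂ v₂ : A) : A := u₁ * v₂ - u₂ * v₁

/-- homogeneous numerator of `x(Q+R) + x(Q-R)` -/
def oS (b₂ b₄ b₆ u₁ v₁ u₂ v₂ : A) : A :=
  2 * u₁ * u₂ * (u₁ * v₂ + u₂ * v₁) + b₂ * u₁ * u₂ * v₁ * v₂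
    + b₄ * (u₁ * v₂ + u₂ * v₁) * v₁ * v₂ + b₆ * v₁ ^ 2 * v₂ ^ 2

/-- numerator of the odd ladder step -/
def oN (b₂ b₄ b₆ x u₁ v₁ u₂ v₂ : A) : A :=
  oS b₂ b₄ b₆ u₁ v₁ u₂ v₂ - x * oW u₁ v₁ u₂ v₂ ^ 2

/-- denominator of the odd ladder step -/
def oD (u₁ v₁ u₂ v₂ : A) : A := oW u₁ v₁ u₂ v₂ ^ 2

/-- The ladder: `lad n = (N_n, D_n)`. -/
def lad (b₂ b₄ b₆ b₈ x : A) : ℕ → A × A
  | 0 => (1, 0)
  | 1 => (x, 1)
  | (n + 2) =>
    if h : (n + 2) % 2 = 0 then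
      (dN b₄ b₆ b₈ (lad b₂ b₄ b₆ b₈ x ((n + 2) / 2)).1 (lad b₂ b₄ b₆ b₈ x ((n + 2) / 2)).2,
        dD b₂ b₄ b₆ (lad b₂ b₄ b₆ b₈ x ((n + 2) / 2)).1 (lad b₂ b₄ b₆ b₈ x ((n + 2) / 2)).2)
    else
      (oN b₂ b₄ b₆ x (lad b₂ b₄ b₆ b₈ x ((n + 2) / 2)).1 (lad b₂ b₄ b₆ b₈ x ((n + 2) / 2)).2
          (lad b₂ b₄ b₆ b₈ x ((n + 2) / 2 + 1)).1 (lad b₂ b₄ b₆ b₈ x ((n + 2) / 2 + 1)).2,
        oD (lad b₂ b₄ b₆ b₈ x ((n + 2) / 2)).1 (lad b₂ b₄ b₆ b₈ x ((n + 2) / 2)).2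
          (lad b₂ b₄ b₆ b₈ x ((n + 2) / 2 + 1)).1 (lad b₂ b₄ b₆ b₈ x ((n + 2) / 2 + 1)).2)
termination_by n => n
decreasing_by all_goals omega

variable (b₂ b₄ b₆ b₈ x : A)

@[simp] lemma lad_zero : lad b₂ b₄ b₆ b₈ x 0 = (1, 0) := by
  rw [lad]

@[simp] lemma lad_one : lad b₂ b₄ b₆ b₈ x 1 = (x, 1) := by
  rw [lad]

lemma lad_two_mul (k : ℕ) :
    lad b₂ b₄ b₆ b₈ x (2 * k) =
      (dN b₄ b₆ b₈ (lad b₂ b₄ b₆ b₈ x k).1 (lad b₂ b₄ b₆ b₈ x k).2,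
        dD b₂ b₄ b₆ (lad b₂ b₄ b₆ b₈ x k).1 (lad b₂ b₄ b₆ b₈ x k).2) := by
  rcases k with _ | k
  · simp [dN, dD]
  · have e : 2 * (k + 1) = 2 * k + 2 := by ring
    rw [e, lad]
    have h1 : (2 * k + 2) % 2 = 0 := by omega
    have h2 : (2 * k + 2) / 2 = k + 1 := by omega
    rw [dif_pos h1, h2]

lemma lad_two_mul_add_one (k : ℕ) :
    lad b₂ b₄ b₆ b₈ x (2 * k + 1) =
      (oN b₂ b₄ b₆ x (lad b₂ b₄ b₆ b₈ x k).1 (lad b₂ b₄ b₆ b₈ x k).2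
          (lad b₂ b₄ b₆ b₈ x (k + 1)).1 (lad b₂ b₄ b₆ b₈ x (k + 1)).2,
        oD (lad b₂ b₄ b₆ b₈ x k).1 (lad b₂ b₄ b₆ b₈ x k).2
          (lad b₂ b₄ b₆ b₈ x (k + 1)).1 (lad b₂ b₄ b₆ b₈ x (k + 1)).2) := by
  rcases k with _ | k
  · simp [oN, oD, oS, oW]
    ring
  · have e : 2 * (k + 1) + 1 = (2 * k + 1) + 2 := by ring
    rw [e, lad]
    have h1 : ¬ (2 * k + 1 + 2) % 2 = 0 := by omega
    have h2 : (2 * k + 1 + 2) / 2 = k + 1 := by omega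
    rw [dif_neg h1, h2]

/-- The ladder commutes with ring homomorphisms. -/
lemma map_lad {B : Type*} [CommRing B] (f : A →+* B) (n : ℕ) :
    lad (f b₂) (f b₄) (f b₆) (f b₈) (f x) n =
      (f (lad b₂ b₄ b₆ b₈ x n).1, f (lad b₂ b₄ b₆ b₈ x n).2) := by
  induction n using Nat.strong_induction_on with
  | _ n ih =>
    rcases Nat.even_or_odd' n with ⟨k, rfl | rfl⟩
    · rcases k with _ | k
      · simp
      · have hk : k + 1 < 2 * (k + 1) := by omega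
        rw [lad_two_mul, lad_two_mul, ih _ hk]
        simp only [dN, dD, map_sub, map_mul, map_pow, map_add, map_ofNat]
    · rcases k with _ | k
      · simp
      · have hk : k + 1 < 2 * (k + 1) + 1 := by omega
        have hk' : k + 1 + 1 < 2 * (k + 1) + 1 := by omega
        rw [lad_two_mul_add_one, lad_two_mul_add_one, ih _ hk, ih _ hk']
        simp only [oN, oD, oS, oW, map_sub, map_mul, map_pow, map_add, map_ofNat]

end Generic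

end Fermat.Agent.S13.H164
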