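import Fermat.Agent.S13.H164.Ladder

/-!
# S13 / T1 (helper164): degrees and leading coefficients of the ladder polynomials
-/

set_option autoImplicit false

namespace Fermat.Agent.S13.H164

open Polynomial

section Lead

variable {R : Type*} [CommRing R]

/-- `f` has degree at most `d` and `d`-th coefficient `c`. -/
def Lead (f : R[X]) (d : ℕ) (c : R) : Prop := f.natDegree ≤ d ∧ f.coeff d = c

lemma Lead.congr {f : R[X]} {d d' : ℕ} {c c' : R} (h : Lead f d c) (hd : d = d') (hc : c = c') :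
    Lead f d' c' := by
  subst hd hc; exact h

lemma Lead.one : Lead (1 : R[X]) 0 1 := ⟨by simp, by simp⟩

lemma Lead.X : Lead (Polynomial.X : R[X]) 1 1 := ⟨natDegree_X_le, by simp⟩

lemma Lead.zero (d : ℕ) : Lead (0 : R[X]) d 0 := ⟨by simp, by simp⟩

lemma Lead.of_lt {f : R[X]} {d : ℕ} (h : f.natDegree < d) : Lead f d 0 :=
  ⟨h.le, coeff_eq_zero_of_natDegree_lt h⟩

lemma Lead.mul {f g : R[X]} {d e : ℕ} {c c' : R} (hf : Lead f d c) (hg : Lead g e c') :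
    Lead (f * g) (d + e) (c * c') :=
  ⟨natDegree_mul_le_of_le hf.1 hg.1, by rw [coeff_mul_add_eq_of_natDegree_le hf.1 hg.1, hf.2, hg.2]⟩

lemma Lead.pow {f : R[X]} {d : ℕ} {c : R} (hf : Lead f d c) (n : ℕ) :
    Lead (f ^ n) (n * d) (c ^ n) :=
  ⟨natDegree_pow_le_of_le n hf.1, by rw [coeff_pow_of_natDegree_le hf.1, hf.2]⟩

lemma Lead.add {f g : R[X]} {d : ℕ} {c c' : R} (hf : Lead f d c) (hg : Lead g d c') :
    Lead (f + g) d (c + c') :=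
  ⟨natDegree_add_le_of_degree_le hf.1 hg.1, by rw [coeff_add, hf.2, hg.2]⟩

lemma Lead.neg {f : R[X]} {d : ℕ} {c : R} (hf : Lead f d c) : Lead (-f) d (-c) :=
  ⟨by rw [natDegree_neg]; exact hf.1, by rw [coeff_neg, hf.2]⟩

lemma Lead.sub {f g : R[X]} {d : ℕ} {c c' : R} (hf : Lead f d c) (hg : Lead g d c') :
    Lead (f - g) d (c - c') := by
  rw [sub_eq_add_neg, sub_eq_add_neg]
  exact hf.add hg.neg

lemma Lead.add_lt {f g : R[X]} {d : ℕ} {c : R} (hf : Lead f d c) (hg : g.natDegree < d) :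
    Lead (f + g) d c := by
  have := hf.add (Lead.of_lt hg)
  rwa [add_zero] at this

lemma Lead.sub_lt {f g : R[X]} {d : ℕ} {c : R} (hf : Lead f d c) (hg : g.natDegree < d) :
    Lead (f - g) d c := by
  have := hf.sub (Lead.of_lt hg)
  rwa [sub_zero] at this

lemma Lead.C_mul {f : R[X]} {d : ℕ} {c : R} (a : R) (hf : Lead f d c) :
    Lead (C a * f) d (a * c) :=
  ⟨(natDegree_C_mul_le a f).trans hf.1, by rw [coeff_C_mul, hf.2]⟩

lemma Lead.ofNat_mul {f : R[X]} {d : ℕ} {c : R} (n : ℕ) (hf : Lead f d c) :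
    Lead ((n : R[X]) * f) d ((n : R) * c) := by
  have := hf.C_mul (n : R)
  rwa [map_natCast] at this

end Lead

section Steps

variable {R : Type*} [CommRing R] (b₂ b₄ b₆ b₈ : R)

lemma natDegree_C_mul_le' (a : R) (f : R[X]) {d : ℕ} (h : f.natDegree ≤ d) :
    (C a * f).natDegree ≤ d := (natDegree_C_mul_le a f).trans h

/-- leading term of the duplication numerator -/
lemma lead_dN {u v : R[X]} {e : ℕ} (hu : Lead u (e + 1) 1) (hv : v.natDegree ≤ e) :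
    Lead (dN (C b₄) (C b₆) (C b₈) u v) (4 * (e + 1)) 1 := by
  unfold dN
  have h1 : Lead (u ^ 4) (4 * (e + 1)) 1 := (hu.pow 4).congr rfl (one_pow 4)
  have h2 : (C b₄ * u ^ 2 * v ^ 2).natDegree < 4 * (e + 1) := by
    have : (C b₄ * u ^ 2 * v ^ 2).natDegree ≤ 0 + 2 * (e + 1) + 2 * e :=
      natDegree_mul_le_of_le (natDegree_mul_le_of_le (natDegree_C b₄).le
        (natDegree_pow_le_of_le 2 hu.1)) (natDegree_pow_le_of_le 2 hv)
    omega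
  have h3 : (2 * C b₆ * u * v ^ 3).natDegree < 4 * (e + 1) := by
    have e2 : (2 : R[X]) * C b₆ = C (2 * b₆) := by rw [C_mul, C_ofNat]
    rw [e2]
    have : (C (2 * b₆) * u * v ^ 3).natDegree ≤ 0 + (e + 1) + 3 * e :=
      natDegree_mul_le_of_le (natDegree_mul_le_of_le (natDegree_C _).le hu.1)
        (natDegree_pow_le_of_le 3 hv)
    omega
  have h4 : (C b₈ * v ^ 4).natDegree < 4 * (e + 1) := by
    have : (C b₈ * v ^ 4).natDegree ≤ 0 + 4 * e :=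
      natDegree_mul_le_of_le (natDegree_C _).le (natDegree_pow_le_of_le 4 hv)
    omega
  exact ((h1.sub_lt h2).sub_lt h3).sub_lt h4

/-- leading term of the duplication denominator -/
lemma lead_dD {u v : R[X]} {e : ℕ} {c : R} (hu : Lead u (e + 1) 1) (hv : Lead v e c) :
    Lead (dD (C b₂) (C b₄) (C b₆) u v) (4 * e + 3) (4 * c) := by
  unfold dD
  have h1 : Lead (4 * u ^ 3) (3 * (e + 1)) 4 := by
    have := (hu.pow 3).ofNat_mul 4
    simpa using this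
  have h2 : (C b₂ * u ^ 2 * v).natDegree < 3 * (e + 1) := by
    have : (C b₂ * u ^ 2 * v).natDegree ≤ 0 + 2 * (e + 1) + e :=
      natDegree_mul_le_of_le (natDegree_mul_le_of_le (natDegree_C _).le
        (natDegree_pow_le_of_le 2 hu.1)) hv.1
    omega
  have h3 : (2 * C b₄ * u * v ^ 2).natDegree < 3 * (e + 1) := by
    have e2 : (2 : R[X]) * C b₄ = C (2 * b₄) := by rw [C_mul, C_ofNat]
    rw [e2]
    have : (C (2 * b₄) * u * v ^ 2).natDegree ≤ 0 + (e + 1) + 2 * e :=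
      natDegree_mul_le_of_le (natDegree_mul_le_of_le (natDegree_C _).le hu.1)
        (natDegree_pow_le_of_le 2 hv.1)
    omega
  have h4 : (C b₆ * v ^ 3).natDegree < 3 * (e + 1) := by
    have : (C b₆ * v ^ 3).natDegree ≤ 0 + 3 * e :=
      natDegree_mul_le_of_le (natDegree_C _).le (natDegree_pow_le_of_le 3 hv.1)
    omega
  have h5 := hv.mul (((h1.add_lt h2).add_lt h3).add_lt h4)
  exact h5.congr (by ring) (by ring)

/-- leading term of `W` in the odd step -/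
lemma lead_oW {u₁ v₁ u₂ v₂ : R[X]} {e₁ e₂ : ℕ} {c₁ c₂ : R}
    (hu₁ : Lead u₁ (e₁ + 1) 1) (hv₁ : Lead v₁ e₁ c₁)
    (hu₂ : Lead u₂ (e₂ + 1) 1) (hv₂ : Lead v₂ e₂ c₂) :
    Lead (oW u₁ v₁ u₂ v₂) (e₁ + e₂ + 1) (c₂ - c₁) := by
  unfold oW
  have h1 := (hu₁.mul hv₂).congr (show e₁ + 1 + e₂ = e₁ + e₂ + 1 by ring) (one_mul c₂)
  have h2 := (hu₂.mul hv₁).congr (show e₂ + 1 + e₁ = e₁ + e₂ + 1 by ring) (one_mul c₁)
  exact h1.sub h2

lemma lead_oD {u₁ v₁ u₂ v₂ : R[X]} {e₁ e₂ : ℕ} {c₁ c₂ : R}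
    (hu₁ : Lead u₁ (e₁ + 1) 1) (hv₁ : Lead v₁ e₁ c₁)
    (hu₂ : Lead u₂ (e₂ + 1) 1) (hv₂ : Lead v₂ e₂ c₂) :
    Lead (oD u₁ v₁ u₂ v₂) (2 * (e₁ + e₂ + 1)) ((c₂ - c₁) ^ 2) :=
  (lead_oW hu₁ hv₁ hu₂ hv₂).pow 2

lemma lead_oS {u₁ v₁ u₂ v₂ : R[X]} {e₁ e₂ : ℕ} {c₁ c₂ : R}
    (hu₁ : Lead u₁ (e₁ + 1) 1) (hv₁ : Lead v₁ e₁ c₁)
    (hu₂ : Lead u₂ (e₂ + 1) 1) (hv₂ : Lead v₂ e₂ c₂) :
    Lead (oS (C b₂) (C b₄) (C b₆) u₁ v₁ u₂ v₂) (2 * (e₁ + e₂ + 1) + 1) (2 * (c₁ + c₂)) := by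
  unfold oS
  have hA : Lead (u₁ * v₂ + u₂ * v₁) (e₁ + e₂ + 1) (c₂ + c₁) := by
    have h1 := (hu₁.mul hv₂).congr (show e₁ + 1 + e₂ = e₁ + e₂ + 1 by ring) (one_mul c₂)
    have h2 := (hu₂.mul hv₁).congr (show e₂ + 1 + e₁ = e₁ + e₂ + 1 by ring) (one_mul c₁)
    exact h1.add h2
  have h1 : Lead (2 * u₁ * u₂ * (u₁ * v₂ + u₂ * v₁)) (2 * (e₁ + e₂ + 1) + 1) (2 * (c₁ + c₂)) := by
    have := (((hu₁.mul hu₂).mul hA).ofNat_mul 2)
    have e : ((2 : ℕ) : R[X]) * (u₁ * u₂ * (u₁ * v₂ + u₂ * v₁)) =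
        2 * u₁ * u₂ * (u₁ * v₂ + u₂ * v₁) := by push_cast; ring
    rw [e] at this
    exact this.congr (by ring) (by push_cast; ring)
  have h2 : (C b₂ * u₁ * u₂ * v₁ * v₂).natDegree < 2 * (e₁ + e₂ + 1) + 1 := by
    have : (C b₂ * u₁ * u₂ * v₁ * v₂).natDegree ≤ 0 + (e₁ + 1) + (e₂ + 1) + e₁ + e₂ :=
      natDegree_mul_le_of_le (natDegree_mul_le_of_le (natDegree_mul_le_of_le
        (natDegree_mul_le_of_le (natDegree_C _).le hu₁.1) hu₂.1) hv₁.1) hv₂.1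
    omega
  have h3 : (C b₄ * (u₁ * v₂ + u₂ * v₁) * v₁ * v₂).natDegree < 2 * (e₁ + e₂ + 1) + 1 := by
    have : (C b₄ * (u₁ * v₂ + u₂ * v₁) * v₁ * v₂).natDegree ≤ 0 + (e₁ + e₂ + 1) + e₁ + e₂ :=
      natDegree_mul_le_of_le (natDegree_mul_le_of_le
        (natDegree_mul_le_of_le (natDegree_C _).le hA.1) hv₁.1) hv₂.1
    omega
  have h4 : (C b₆ * v₁ ^ 2 * v₂ ^ 2).natDegree < 2 * (e₁ + e₂ + 1) + 1 := by
    have : (C b₆ * v₁ ^ 2 * v₂ ^ 2).natDegree ≤ 0 + 2 * e₁ + 2 * e₂ :=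
      natDegree_mul_le_of_le (natDegree_mul_le_of_le (natDegree_C _).le
        (natDegree_pow_le_of_le 2 hv₁.1)) (natDegree_pow_le_of_le 2 hv₂.1)
    omega
  exact ((h1.add_lt h2).add_lt h3).add_lt h4

lemma lead_oN {u₁ v₁ u₂ v₂ : R[X]} {e₁ e₂ : ℕ} {c₁ c₂ : R}
    (hu₁ : Lead u₁ (e₁ + 1) 1) (hv₁ : Lead v₁ e₁ c₁)
    (hu₂ : Lead u₂ (e₂ + 1) 1) (hv₂ : Lead v₂ e₂ c₂) :
    Lead (oN (C b₂) (C b₄) (C b₆) X u₁ v₁ u₂ v₂) (2 * (e₁ + e₂ + 1) + 1)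
      (2 * (c₁ + c₂) - (c₂ - c₁) ^ 2) := by
  unfold oN
  have h1 := lead_oS b₂ b₄ b₆ hu₁ hv₁ hu₂ hv₂
  have h2 : Lead (X * oW u₁ v₁ u₂ v₂ ^ 2) (2 * (e₁ + e₂ + 1) + 1) ((c₂ - c₁) ^ 2) :=
    (Lead.X.mul ((lead_oW hu₁ hv₁ hu₂ hv₂).pow 2)).congr (by ring) (one_mul _)
  exact h1.sub h2

end Steps

section LadP

variable {R : Type*} [CommRing R] (b₂ b₄ b₆ b₈ : R)

/-- The ladder polynomials `(N_n, D_n)` in `R[X]`. -/
noncomputable def ladP (n : ℕ) : R[X] × R[X] :=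
  lad (C b₂) (C b₄) (C b₆) (C b₈) X n

/-- Degrees and leading coefficients of the ladder polynomials: for `n = j + 1 ≥ 1`,
`N_n` is monic of degree `n²` and `D_n` has degree `≤ n² - 1` with `(n²-1)`-th coefficient `n²`. -/
theorem lead_ladP (j : ℕ) :
    Lead (ladP b₂ b₄ b₆ b₈ (j + 1)).1 (j * j + 2 * j + 1) 1 ∧
      Lead (ladP b₂ b₄ b₆ b₈ (j + 1)).2 (j * j + 2 * j) (((j + 1 : ℕ) : R) ^ 2) := by
  induction j using Nat.strong_induction_on with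
  | _ j ih =>
    rcases Nat.even_or_odd' (j + 1) with ⟨k, hk | hk⟩
    · -- j + 1 = 2 * k, k ≥ 1
      obtain ⟨i, rfl⟩ : ∃ i, k = i + 1 := ⟨k - 1, by omega⟩
      have hi : i < j := by omega
      obtain ⟨hu, hv⟩ := ih i hi
      have hj : j = 2 * i + 1 := by omega
      subst hj
      unfold ladP at hu hv ⊢
      rw [show 2 * i + 1 + 1 = 2 * (i + 1) by ring, lad_two_mul]
      refine ⟨(lead_dN b₄ b₆ b₈ hu hv.1).congr (by ring) rfl,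
        (lead_dD b₂ b₄ b₆ hu hv).congr (by ring) (by push_cast; ring)⟩
    · -- j + 1 = 2 * k + 1
      have hj : j = 2 * k := by omega
      subst hj
      rcases k with _ | i
      · simp only [ladP, Nat.mul_zero, zero_add, lad_one, Nat.cast_one, one_pow]
        exact ⟨Lead.X, Lead.one⟩
      · have hi : i < 2 * (i + 1) := by omega
        have hi' : i + 1 < 2 * (i + 1) := by omega
        obtain ⟨hu₁, hv₁⟩ := ih i hi
        obtain ⟨hu₂, hv₂⟩ := ih (i + 1) hi'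
        unfold ladP at hu₁ hv₁ hu₂ hv₂ ⊢
        rw [lad_two_mul_add_one]
        refine ⟨(lead_oN b₂ b₄ b₆ hu₁ hv₁ hu₂ hv₂).congr (by ring) (by push_cast; ring),
          (lead_oD hu₁ hv₁ hu₂ hv₂).congr (by ring) (by push_cast; ring)⟩

/-- The polynomial `Q_m = N_m D_{m+1} - N_{m+1} D_m`, whose roots are the `x`-coordinates of the
nonzero points killed by `2m+1`. -/
noncomputable def ladQ (m : ℕ) : R[X] :=
  oW (ladP b₂ b₄ b₆ b₈ m).1 (ladP b₂ b₄ b₆ b₈ m).2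
    (ladP b₂ b₄ b₆ b₈ (m + 1)).1 (ladP b₂ b₄ b₆ b₈ (m + 1)).2

theorem lead_ladQ (m : ℕ) :
    Lead (ladQ b₂ b₄ b₆ b₈ m) (2 * m * m + 2 * m) ((2 * m + 1 : ℕ) : R) := by
  rcases m with _ | i
  · simp only [ladQ, ladP, lad_zero, zero_add, lad_one, oW]
    simp only [one_mul, mul_zero, sub_zero]
    exact (Lead.one (R := R)).congr rfl (by simp)
  · obtain ⟨hu₁, hv₁⟩ := lead_ladP b₂ b₄ b₆ b₈ i
    obtain ⟨hu₂, hv₂⟩ := lead_ladP b₂ b₄ b₆ b₈ (i + 1)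
    unfold ladQ
    exact (lead_oW hu₁ hv₁ hu₂ hv₂).congr (by ring) (by push_cast; ring)

end LadP

end Fermat.Agent.S13.H164
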