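import Fermat.Agent.S13.H164.Ladder
import Fermat.Agent.S05.XId

/-!
# S13 / T1 (helper164): projective validity of the `x`-ladder

For a nonsingular affine point `P = (x, y)` on a Weierstrass curve `W` over a field and every
`n : ℕ`, the pair `lad … x n = (N_n, D_n)` represents the `x`-coordinate of `n • P`
projectively: `(N_n, D_n) ≠ (0, 0)`, `n • P = 0 ↔ D_n = 0`, and otherwise `x(n • P) = N_n / D_n`.
-/

set_option autoImplicit false

namespace Fermat.Agent.S13.H164

open WeierstrassCurve WeierstrassCurve.Affine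
open Fermat.Agent.S05.XId

variable {F : Type*} [Field F] {W : Affine F}

/-- `(u : v)` represents the `x`-coordinate of `Q` projectively. -/
def Rep (W : Affine F) : W.Point → F → F → Prop
  | .zero, u, v => v = 0 ∧ u ≠ 0
  | .some x _ _, u, v => v ≠ 0 ∧ x * v = u

lemma rep_zero_iff {u v : F} : Rep W (0 : W.Point) u v ↔ v = 0 ∧ u ≠ 0 := Iff.rfl

lemma rep_some_iff {x y : F} {h : W.Nonsingular x y} {u v : F} :
    Rep W (Point.some x y h) u v ↔ v ≠ 0 ∧ x * v = u := Iff.rfl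

lemma Rep.eq_zero_iff {Q : W.Point} {u v : F} (h : Rep W Q u v) : Q = 0 ↔ v = 0 := by
  match Q, h with
  | .zero, h => exact ⟨fun _ => h.1, fun _ => rfl⟩
  | .some x y hxy, h => exact ⟨fun h0 => absurd h0 (Point.some_ne_zero hxy), fun h0 => absurd h0 h.1⟩

lemma Rep.ne_zero {Q : W.Point} {u v : F} (h : Rep W Q u v) : u ≠ 0 ∨ v ≠ 0 := by
  match Q, h with
  | .zero, h => exact Or.inl h.2
  | .some x y hxy, h => exact Or.inr h.1

/-- At a nonsingular point with `ψ₂²(x) = 0`, the duplication numerator does not vanish. -/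
lemma dblNum_ne_zero_of_dblDen_eq_zero {x y : F} (h : W.Nonsingular x y)
    (hy : y = W.negY x y) : dblNum W x ≠ 0 := by
  rw [Affine.nonsingular_iff] at h
  obtain ⟨he, hs⟩ := h
  rw [Affine.equation_iff] at he
  simp only [Affine.negY] at hy
  have hψ : 2 * y + W.a₁ * x + W.a₃ = 0 := by linear_combination hy
  have hX : W.a₁ * y - (3 * x ^ 2 + 2 * W.a₂ * x + W.a₄) ≠ 0 := by
    rcases hs with hs | hs
    · exact sub_ne_zero.mpr hs
    · exact absurd (by linear_combination hψ) hs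
  have key : dblNum W x = (W.a₁ * y - (3 * x ^ 2 + 2 * W.a₂ * x + W.a₄)) ^ 2 := by
    simp only [dblNum, WeierstrassCurve.b₄, WeierstrassCurve.b₆, WeierstrassCurve.b₈]
    linear_combination (8 * x + W.a₁ ^ 2 + 4 * W.a₂) * he +
      (W.a₁ * (3 * x ^ 2 + 2 * W.a₂ * x + W.a₄ - W.a₁ * y)
        - (W.a₂ + 2 * x) * (2 * y + W.a₁ * x + W.a₃)) * hψ
  rw [key]
  exact pow_ne_zero 2 hX

lemma dN_eq (x v : F) : dN W.b₄ W.b₆ W.b₈ (x * v) v = v ^ 4 * dblNum W x := by
  simp only [dN, dblNum]; ring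

lemma dD_eq (x v : F) : dD W.b₂ W.b₄ W.b₆ (x * v) v = v ^ 4 * dblDen W x := by
  simp only [dD, dblDen]; ring

lemma oW_eq (x₁ v₁ x₂ v₂ : F) : oW (x₁ * v₁) v₁ (x₂ * v₂) v₂ = v₁ * v₂ * (x₁ - x₂) := by
  simp only [oW]; ring

lemma oS_eq (x₁ v₁ x₂ v₂ : F) :
    oS W.b₂ W.b₄ W.b₆ (x₁ * v₁) v₁ (x₂ * v₂) v₂ = (v₁ * v₂) ^ 2 * sumNum W x₁ x₂ := by
  simp only [oS, sumNum]; ring

variable [DecidableEq F]

/-- the even ladder step -/
lemma Rep.double {Q : W.Point} {u v : F} (h : Rep W Q u v) :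
    Rep W (Q + Q) (dN W.b₄ W.b₆ W.b₈ u v) (dD W.b₂ W.b₄ W.b₆ u v) := by
  match Q, h with
  | .zero, h =>
    obtain ⟨hv, hu⟩ := h
    subst hv
    have : (Point.zero : W.Point) + Point.zero = 0 := add_zero (0 : W.Point)
    rw [this, rep_zero_iff]
    refine ⟨by simp [dD], ?_⟩
    simp only [dN]
    simpa using pow_ne_zero 4 hu
  | .some x y hxy, h =>
    obtain ⟨hv, hu⟩ := h
    subst hu
    rw [dN_eq, dD_eq]
    by_cases hy : y = W.negY x y
    · rw [Point.add_self_of_Y_eq hy, rep_zero_iff, dblDen_eq_zero_of_Y_eq hxy.1 hy]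
      exact ⟨mul_zero _, mul_ne_zero (pow_ne_zero 4 hv) (dblNum_ne_zero_of_dblDen_eq_zero hxy hy)⟩
    · obtain ⟨x', y', h', hadd, hx', hD⟩ := add_self_some hxy hy
      rw [hadd, rep_some_iff]
      refine ⟨mul_ne_zero (pow_ne_zero 4 hv) hD, ?_⟩
      rw [← hx']; ring

/-- the odd ladder step -/
lemma Rep.add_of_sub {x y : F} (hP : W.Nonsingular x y) {Q R : W.Point}
    (hQR : Q - R = Point.some x y hP) {u₁ v₁ u₂ v₂ : F}
    (hR : Rep W R u₁ v₁) (hQ : Rep W Q u₂ v₂) :
    Rep W (Q + R) (oN W.b₂ W.b₄ W.b₆ x u₁ v₁ u₂ v₂) (oD u₁ v₁ u₂ v₂) := by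
  match Q, R, hQR, hQ, hR with
  | .zero, .zero, hQR, _, _ =>
    exfalso
    have : (Point.zero : W.Point) - Point.zero = 0 := sub_zero (0 : W.Point)
    rw [this] at hQR
    exact Point.some_ne_zero hP hQR.symm
  | .some x₂ y₂ h₂, .zero, hQR, hQ, hR =>
    obtain ⟨hv₁, hu₁⟩ := hR
    obtain ⟨hv₂, hu₂⟩ := hQ
    subst hv₁ hu₂
    have e0 : Point.some x₂ y₂ h₂ - (Point.zero : W.Point) = Point.some x₂ y₂ h₂ :=
      sub_zero (Point.some x₂ y₂ h₂)
    rw [e0] at hQR
    have hx : x₂ = x := by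
      have := congrArg (fun P : W.Point => match P with | .zero => (0 : F) | .some a _ _ => a) hQR
      simpa using this
    subst hx
    have e1 : Point.some x₂ y₂ h₂ + (Point.zero : W.Point) = Point.some x₂ y₂ h₂ :=
      add_zero (Point.some x₂ y₂ h₂)
    rw [e1, rep_some_iff]
    simp only [oD, oN, oS, oW]
    refine ⟨?_, by ring⟩
    simpa using mul_ne_zero hu₁ hv₂
  | .zero, .some x₁ y₁ h₁, hQR, hQ, hR =>
    obtain ⟨hv₁, hu₁⟩ := hR
    obtain ⟨hv₂, hu₂⟩ := hQ
    subst hv₂ hu₁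
    have e0 : (Point.zero : W.Point) - Point.some x₁ y₁ h₁ = -Point.some x₁ y₁ h₁ :=
      zero_sub (Point.some x₁ y₁ h₁)
    rw [e0, Point.neg_some] at hQR
    have hx : x₁ = x := by
      have := congrArg (fun P : W.Point => match P with | .zero => (0 : F) | .some a _ _ => a) hQR
      simpa using this
    subst hx
    have e1 : (Point.zero : W.Point) + Point.some x₁ y₁ h₁ = Point.some x₁ y₁ h₁ :=
      zero_add (Point.some x₁ y₁ h₁)
    rw [e1, rep_some_iff]
    simp only [oD, oN, oS, oW]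
    refine ⟨?_, by ring⟩
    simpa using mul_ne_zero hu₂ hv₁
  | .some x₂ y₂ h₂, .some x₁ y₁ h₁, hQR, hQ, hR =>
    obtain ⟨hv₁, hu₁⟩ := hR
    obtain ⟨hv₂, hu₂⟩ := hQ
    subst hu₁ hu₂
    have hvv : v₁ * v₂ ≠ 0 := mul_ne_zero hv₁ hv₂
    by_cases hx : x₂ = x₁
    · -- `Q = ± R`; `Q = R` is impossible, so `Q = -R`
      subst hx
      have hy : y₂ = W.negY x₂ y₁ := by
        rcases Affine.Y_eq_of_X_eq h₂.1 h₁.1 rfl with h | h
        · exfalso
          subst h
          have : Point.some x₂ y₂ h₂ - Point.some x₂ y₂ h₁ = 0 := sub_self _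
          rw [this] at hQR
          exact Point.some_ne_zero hP hQR.symm
        · exact h
      have hsum : Point.some x₂ y₂ h₂ + Point.some x₂ y₁ h₁ = 0 :=
        Point.add_of_Y_eq rfl hy
      rw [hsum, rep_zero_iff]
      simp only [oD, oN]
      rw [oW_eq, oS_eq, sub_self, mul_zero]
      refine ⟨by ring, ?_⟩
      -- `sumNum x x = dblDen x ≠ 0` since `R` is not `2`-torsion
      have hy1 : y₁ ≠ W.negY x₂ y₁ := by
        intro h
        -- then `Q = R`
        have : y₂ = y₁ := hy.trans h.symm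
        subst this
        have : Point.some x₂ y₂ h₂ - Point.some x₂ y₂ h₁ = 0 := sub_self _
        rw [this] at hQR
        exact Point.some_ne_zero hP hQR.symm
      have hD : dblDen W x₂ ≠ 0 := by
        rw [← sub_negY_sq W h₁.1]
        exact pow_ne_zero 2 (sub_ne_zero.mpr hy1)
      have e : sumNum W x₂ x₂ = dblDen W x₂ := by
        simp only [sumNum, dblDen]; ring
      have : (v₁ * v₂) ^ 2 * sumNum W x₂ x₂ - x * 0 ^ 2 ≠ 0 := by
        rw [e]
        simpa using mul_ne_zero (pow_ne_zero 2 hvv) hD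
      exact this
    · obtain ⟨x₃, y₃, x₄, y₄, h₃, h₄, hadd, hsub, hsum, -⟩ := add_sub_some h₂ h₁ hx
      rw [hsub] at hQR
      have hx4 : x₄ = x := by
        have := congrArg (fun P : W.Point => match P with | .zero => (0 : F) | .some a _ _ => a) hQR
        simpa using this
      subst hx4
      rw [hadd, rep_some_iff]
      simp only [oD, oN]
      rw [oW_eq, oS_eq]
      have hne : x₁ - x₂ ≠ 0 := sub_ne_zero.mpr (Ne.symm hx)
      refine ⟨pow_ne_zero 2 (mul_ne_zero hvv hne), ?_⟩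
      have e : sumNum W x₁ x₂ = sumNum W x₂ x₁ := by
        simp only [sumNum]; ring
      rw [e, ← hsum]; ring

/-- **Validity of the ladder.** -/
theorem rep_nsmul {x y : F} (hP : W.Nonsingular x y) (n : ℕ) :
    Rep W (n • Point.some x y hP) (lad W.b₂ W.b₄ W.b₆ W.b₈ x n).1
      (lad W.b₂ W.b₄ W.b₆ W.b₈ x n).2 := by
  induction n using Nat.strong_induction_on with
  | _ n ih =>
    rcases Nat.even_or_odd' n with ⟨k, rfl | rfl⟩
    · rcases k with _ | k
      · simp only [Nat.mul_zero, zero_smul, lad_zero]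
        exact ⟨rfl, one_ne_zero⟩
      · have hk : k + 1 < 2 * (k + 1) := by omega
        rw [lad_two_mul, two_mul, add_smul]
        exact (ih _ hk).double
    · have hk : k < 2 * k + 1 := by omega
      rcases k with _ | k
      · simp only [Nat.mul_zero, zero_add, one_smul, lad_one]
        exact ⟨one_ne_zero, mul_one x⟩
      · have hk' : k + 1 + 1 < 2 * (k + 1) + 1 := by omega
        rw [lad_two_mul_add_one]
        have e : (2 * (k + 1) + 1) • Point.some x y hP =
            (k + 1 + 1) • Point.some x y hP + (k + 1) • Point.some x y hP := by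
          rw [← add_smul]; congr 1; ring
        rw [e]
        refine Rep.add_of_sub hP ?_ (ih _ hk) (ih _ hk')
        rw [add_smul (k + 1) 1, one_smul, add_sub_cancel_left]

/-- `n • P = 0` iff the `n`-th ladder denominator vanishes at `x(P)`. -/
theorem nsmul_eq_zero_iff {x y : F} (hP : W.Nonsingular x y) (n : ℕ) :
    n • Point.some x y hP = 0 ↔ (lad W.b₂ W.b₄ W.b₆ W.b₈ x n).2 = 0 :=
  (rep_nsmul hP n).eq_zero_iff

/-- `(2m+1) • P = 0` iff `W_m = N_m D_{m+1} - N_{m+1} D_m` vanishes at `x(P)`. -/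
theorem odd_nsmul_eq_zero_iff {x y : F} (hP : W.Nonsingular x y) (m : ℕ) :
    (2 * m + 1) • Point.some x y hP = 0 ↔
      oW (lad W.b₂ W.b₄ W.b₆ W.b₈ x m).1 (lad W.b₂ W.b₄ W.b₆ W.b₈ x m).2
        (lad W.b₂ W.b₄ W.b₆ W.b₈ x (m + 1)).1 (lad W.b₂ W.b₄ W.b₆ W.b₈ x (m + 1)).2 = 0 := by
  rw [nsmul_eq_zero_iff, lad_two_mul_add_one]
  simp only [oD]
  exact pow_eq_zero_iff two_ne_zero

end Fermat.Agent.S13.H164
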