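import Fermat.Agent.S13.H164.LadderDeg
import Fermat.Agent.S13.H164.LadderValid
import Fermat.Agent.S51.H780.Count

/-!
# S13 / T1 (helper164): odd torsion of a Weierstrass curve via the `x`-ladder

For `n = 2m+1` we get a polynomial `Qpoly W m ∈ R[X]` (functorial in the coefficient ring `R`),
of degree `≤ (n² - 1)/2 = 2m² + 2m` with coefficient `n` in that degree, such that for every
nonsingular affine point `P = (x, y)` over a field: `n • P = 0 ↔ Qpoly(x) = 0`.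

Consequences over an algebraically closed field in which `n ≠ 0` (and `Δ ≠ 0` for existence):
a nonzero point killed by `n` exists, and there are at most `n²` points killed by `n`.
-/

set_option autoImplicit false

namespace Fermat.Agent.S13.H164

open Polynomial WeierstrassCurve

section Ring

variable {R : Type*} [CommRing R]

/-- The `x`-ladder division polynomial for `n = 2m + 1`. -/
noncomputable def Qpoly (W : WeierstrassCurve R) (m : ℕ) : R[X] :=
  ladQ W.b₂ W.b₄ W.b₆ W.b₈ m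

lemma ringHom_ladP {S : Type*} [CommRing S] (φ : R[X] →+* S) (b₂ b₄ b₆ b₈ : R) (n : ℕ) :
    lad (φ (C b₂)) (φ (C b₄)) (φ (C b₆)) (φ (C b₈)) (φ X) n =
      (φ (ladP b₂ b₄ b₆ b₈ n).1, φ (ladP b₂ b₄ b₆ b₈ n).2) :=
  map_lad (C b₂) (C b₄) (C b₆) (C b₈) X φ n

lemma ringHom_ladQ {S : Type*} [CommRing S] (φ : R[X] →+* S) (b₂ b₄ b₆ b₈ : R) (m : ℕ) :
    φ (ladQ b₂ b₄ b₆ b₈ m) =
      oW (lad (φ (C b₂)) (φ (C b₄)) (φ (C b₆)) (φ (C b₈)) (φ X) m).1
        (lad (φ (C b₂)) (φ (C b₄)) (φ (C b₆)) (φ (C b₈)) (φ X) m).2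
        (lad (φ (C b₂)) (φ (C b₄)) (φ (C b₆)) (φ (C b₈)) (φ X) (m + 1)).1
        (lad (φ (C b₂)) (φ (C b₄)) (φ (C b₆)) (φ (C b₈)) (φ X) (m + 1)).2 := by
  rw [ringHom_ladP, ringHom_ladP]
  simp only [ladQ, oW, map_sub, map_mul]

/-- Evaluating `Qpoly` along a ring homomorphism. -/
lemma eval₂_Qpoly {S : Type*} [CommRing S] (f : R →+* S) (W : WeierstrassCurve R) (m : ℕ) (x : S) :
    (Qpoly W m).eval₂ f x =
      oW (lad (W.map f).b₂ (W.map f).b₄ (W.map f).b₆ (W.map f).b₈ x m).1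
        (lad (W.map f).b₂ (W.map f).b₄ (W.map f).b₆ (W.map f).b₈ x m).2
        (lad (W.map f).b₂ (W.map f).b₄ (W.map f).b₆ (W.map f).b₈ x (m + 1)).1
        (lad (W.map f).b₂ (W.map f).b₄ (W.map f).b₆ (W.map f).b₈ x (m + 1)).2 := by
  have := ringHom_ladQ (eval₂RingHom f x) W.b₂ W.b₄ W.b₆ W.b₈ m
  simp only [coe_eval₂RingHom, eval₂_C, eval₂_X] at this
  rw [Qpoly, this, WeierstrassCurve.map_b₂, WeierstrassCurve.map_b₄, WeierstrassCurve.map_b₆,
    WeierstrassCurve.map_b₈]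

lemma eval_Qpoly (W : WeierstrassCurve R) (m : ℕ) (x : R) :
    (Qpoly W m).eval x =
      oW (lad W.b₂ W.b₄ W.b₆ W.b₈ x m).1 (lad W.b₂ W.b₄ W.b₆ W.b₈ x m).2
        (lad W.b₂ W.b₄ W.b₆ W.b₈ x (m + 1)).1 (lad W.b₂ W.b₄ W.b₆ W.b₈ x (m + 1)).2 := by
  have := ringHom_ladQ (evalRingHom x) W.b₂ W.b₄ W.b₆ W.b₈ m
  simp only [coe_evalRingHom, eval_C, eval_X] at this
  rw [Qpoly, this]

/-- `Qpoly` is functorial in the coefficient ring. -/
lemma map_Qpoly {S : Type*} [CommRing S] (f : R →+* S) (W : WeierstrassCurve R) (m : ℕ) :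
    (Qpoly W m).map f = Qpoly (W.map f) m := by
  have := ringHom_ladQ (mapRingHom f) W.b₂ W.b₄ W.b₆ W.b₈ m
  simp only [coe_mapRingHom, map_C, map_X] at this
  rw [Qpoly, this, Qpoly, ladQ, WeierstrassCurve.map_b₂, WeierstrassCurve.map_b₄,
    WeierstrassCurve.map_b₆, WeierstrassCurve.map_b₈]
  rfl

lemma lead_Qpoly (W : WeierstrassCurve R) (m : ℕ) :
    Lead (Qpoly W m) (2 * m * m + 2 * m) ((2 * m + 1 : ℕ) : R) :=
  lead_ladQ W.b₂ W.b₄ W.b₆ W.b₈ m

lemma natDegree_Qpoly_le (W : WeierstrassCurve R) (m : ℕ) :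
    (Qpoly W m).natDegree ≤ 2 * m * m + 2 * m := (lead_Qpoly W m).1

lemma coeff_Qpoly (W : WeierstrassCurve R) (m : ℕ) :
    (Qpoly W m).coeff (2 * m * m + 2 * m) = ((2 * m + 1 : ℕ) : R) := (lead_Qpoly W m).2

lemma natDegree_Qpoly (W : WeierstrassCurve R) (m : ℕ) (h : ((2 * m + 1 : ℕ) : R) ≠ 0) :
    (Qpoly W m).natDegree = 2 * m * m + 2 * m := by
  refine le_antisymm (natDegree_Qpoly_le W m) ?_
  apply le_natDegree_of_ne_zero
  rw [coeff_Qpoly]; exact h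

lemma leadingCoeff_Qpoly (W : WeierstrassCurve R) (m : ℕ) (h : ((2 * m + 1 : ℕ) : R) ≠ 0) :
    (Qpoly W m).leadingCoeff = ((2 * m + 1 : ℕ) : R) := by
  rw [leadingCoeff, natDegree_Qpoly W m h, coeff_Qpoly]

lemma Qpoly_ne_zero (W : WeierstrassCurve R) (m : ℕ) (h : ((2 * m + 1 : ℕ) : R) ≠ 0) :
    Qpoly W m ≠ 0 := by
  intro h0
  have := coeff_Qpoly W m
  rw [h0, coeff_zero] at this
  exact h this.symm

end Ring

section Field

variable {F : Type*} [Field F] [DecidableEq F] (W : WeierstrassCurve.Affine F)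

/-- **Torsion criterion**: `(2m+1) • P = 0 ↔ Qpoly(x(P)) = 0`. -/
theorem odd_nsmul_eq_zero_iff_eval {x y : F} (hP : W.Nonsingular x y) (m : ℕ) :
    (2 * m + 1) • Affine.Point.some x y hP = 0 ↔ (Qpoly W m).eval x = 0 := by
  rw [odd_nsmul_eq_zero_iff, eval_Qpoly]

/-- Version for a curve defined over a subring: the polynomial has coefficients in `R`. -/
theorem odd_nsmul_eq_zero_iff_eval₂ {R : Type*} [CommRing R] (f : R →+* F)
    (W₀ : WeierstrassCurve R) {x y : F} (hP : (W₀.map f).toAffine.Nonsingular x y) (m : ℕ) :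
    (2 * m + 1) • Affine.Point.some x y hP = 0 ↔ (Qpoly W₀ m).eval₂ f x = 0 := by
  rw [odd_nsmul_eq_zero_iff, eval₂_Qpoly]

lemma mem_torsionBy_iff_nsmul' {n : ℕ} (P : W.Point) :
    P ∈ Submodule.torsionBy ℤ W.Point n ↔ n • P = 0 := by
  rw [Submodule.mem_torsionBy_iff, Nat.cast_smul_eq_nsmul]

open Fermat.Agent.S51.H780 in
/-- There are at most `n²` points killed by an odd `n = 2m+1` which is nonzero in `F`. -/
theorem finite_card_odd_torsion (m : ℕ) (h : ((2 * m + 1 : ℕ) : F) ≠ 0) :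
    Finite (Submodule.torsionBy ℤ W.Point ((2 * m + 1 : ℕ) : ℤ)) ∧
      Nat.card (Submodule.torsionBy ℤ W.Point ((2 * m + 1 : ℕ) : ℤ)) ≤ (2 * m + 1) ^ 2 := by
  have key := finite_and_ncard_le_of_xc_roots W
    (Submodule.torsionBy ℤ W.Point ((2 * m + 1 : ℕ) : ℤ) : Set W.Point) (Qpoly W m)
    (Qpoly_ne_zero W m h) (by
      intro P hP hP0
      match P, hP, hP0 with
      | .zero, _, hP0 => exact absurd rfl hP0
      | .some x y hxy, hP, _ =>
        rw [xc_some]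
        exact (odd_nsmul_eq_zero_iff_eval W hxy m).mp ((mem_torsionBy_iff_nsmul' W _).mp hP))
  refine ⟨key.1.to_subtype, ?_⟩
  have hdeg := natDegree_Qpoly_le W m
  have e : Nat.card (Submodule.torsionBy ℤ W.Point ((2 * m + 1 : ℕ) : ℤ)) =
      (Submodule.torsionBy ℤ W.Point ((2 * m + 1 : ℕ) : ℤ) : Set W.Point).ncard := rfl
  rw [e]
  calc _ ≤ 2 * (Qpoly W m).natDegree + 1 := key.2
    _ ≤ 2 * (2 * m * m + 2 * m) + 1 := by omega
    _ = (2 * m + 1) ^ 2 := by ring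

open Fermat.Agent.S51.H780 in
/-- Over an algebraically closed field, a nonzero point killed by `n = 2m+1 ≥ 3` exists. -/
theorem exists_odd_torsion [IsAlgClosed F] (hΔ : W.Δ ≠ 0) (m : ℕ) (hm : 1 ≤ m)
    (h : ((2 * m + 1 : ℕ) : F) ≠ 0) :
    ∃ P : W.Point, P ≠ 0 ∧ (2 * m + 1) • P = 0 := by
  obtain ⟨x, hx⟩ := IsAlgClosed.exists_root (Qpoly W m) (by
    rw [Polynomial.degree_eq_natDegree (Qpoly_ne_zero W m h), natDegree_Qpoly W m h]
    have : 0 < 2 * m * m + 2 * m := by positivity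
    exact_mod_cast this.ne')
  obtain ⟨y, hy⟩ := IsAlgClosed.exists_root (yPoly W x) (by
    rw [Polynomial.degree_eq_natDegree (yPoly_ne_zero W x), yPoly_natDegree]; norm_num)
  have he : W.Equation x y := (yPoly_eval W).mp hy
  have hns : W.Nonsingular x y := (Affine.equation_iff_nonsingular_of_Δ_ne_zero hΔ).mp he
  exact ⟨Affine.Point.some x y hns, Affine.Point.some_ne_zero hns,
    (odd_nsmul_eq_zero_iff_eval W hns m).mpr hx⟩

/-- `E[n]` is nontrivial for odd `n ≥ 3` invertible in an algebraically closed field. -/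
theorem nontrivial_odd_torsion [IsAlgClosed F] (hΔ : W.Δ ≠ 0) (n : ℕ) (hn : Odd n) (hn3 : 3 ≤ n)
    (h : (n : F) ≠ 0) : Nontrivial (Submodule.torsionBy ℤ W.Point (n : ℤ)) := by
  obtain ⟨m, rfl⟩ := hn
  obtain ⟨P, hP0, hP⟩ := exists_odd_torsion W hΔ m (by omega) h
  refine ⟨⟨⟨P, (mem_torsionBy_iff_nsmul' W P).mpr hP⟩, 0, ?_⟩⟩
  intro h0
  exact hP0 (congrArg Subtype.val h0)

/-- `#E[n] ≤ n²` for odd `n` invertible in the field. -/
theorem finite_card_torsion_of_odd (n : ℕ) (hn : Odd n) (h : (n : F) ≠ 0) :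
    Finite (Submodule.torsionBy ℤ W.Point (n : ℤ)) ∧
      Nat.card (Submodule.torsionBy ℤ W.Point (n : ℤ)) ≤ n ^ 2 := by
  obtain ⟨m, rfl⟩ := hn
  exact finite_card_odd_torsion W m h

end Field

end Fermat.Agent.S13.H164
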